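/-
S55 / F-abs / END-1 : `CoInd_V Res N ->> N` kills `H¹(N')` for all small `V`.
-/
import Fermat.Agent.S55.F.Eps.Main

set_option autoImplicit false
set_option maxSynthPendingDepth 3

namespace Fermat.Agent.S55.F

open Representation Module

noncomputable section

/-- simultaneous effacement of finitely many classes -/
theorem CohTheory.efface_finset {k : Type} [Field k] {Γ : Type} [Group Γ] (C : CohTheory k Γ)
    {V : Type} [AddCommGroup V] [Module k V] (ρ : Representation k Γ V) (hρ : C.IsOpen ρ.ker)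
    (S : Finset (C.H1 ρ)) : ∃ V₀ : Subgroup Γ, C.IsOpen V₀ ∧
      ∀ U : Subgroup Γ, C.IsOpen U → U ≤ V₀ → ∀ x ∈ S, C.map1 (unit U ρ) x = 0 := by
  classical
  induction S using Finset.induction_on with
  | empty => exact ⟨⊤, C.isOpen_top, fun _ _ _ x hx => absurd hx (Finset.notMem_empty x)⟩
  | insert a S _ ih =>
    obtain ⟨V₁, hV₁, h₁⟩ := ih
    obtain ⟨V₂, hV₂, h₂⟩ := C.efface ρ hρ a
    refine ⟨V₁ ⊓ V₂, C.isOpen_inf hV₁ hV₂, fun U hU hle x hx => ?_⟩
    rcases Finset.mem_insert.1 hx with rfl | hx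
    · exact h₂ U hU (hle.trans inf_le_right)
    · exact h₁ U hU (hle.trans inf_le_left) x hx

/-- simultaneous effacement of a finite dimensional `H¹` -/
theorem CohTheory.efface_of_finite {k : Type} [Field k] {Γ : Type} [Group Γ] (C : CohTheory k Γ)
    {V : Type} [AddCommGroup V] [Module k V] (ρ : Representation k Γ V) (hρ : C.IsOpen ρ.ker)
    (hfin : Module.Finite k (C.H1 ρ)) : ∃ V₀ : Subgroup Γ, C.IsOpen V₀ ∧
      ∀ U : Subgroup Γ, C.IsOpen U → U ≤ V₀ → ∀ x : C.H1 ρ, C.map1 (unit U ρ) x = 0 := by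
  obtain ⟨S, hS⟩ := hfin.fg_top
  obtain ⟨V₀, hV₀, h⟩ := C.efface_finset ρ hρ S
  refine ⟨V₀, hV₀, fun U hU hle x => ?_⟩
  have h1 : Submodule.span k (S : Set (C.H1 ρ)) ≤ LinearMap.ker (C.map1 (unit U ρ)) :=
    Submodule.span_le.2 fun y hy => h U hU hle y hy
  have h2 : x ∈ Submodule.span k (S : Set (C.H1 ρ)) := hS ▸ Submodule.mem_top
  exact h1 h2

namespace Datum

variable {p : ℕ} [Fact p.Prime] {A : Datum p}
variable {N : Type} [AddCommGroup N] [Module (ZMod p) N]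

theorem Numbers.exists_kill (hN : A.Numbers) [Module.Finite (ZMod p) N]
    (ρ : Representation (ZMod p) A.G N) (hρ : A.CG.IsOpen ρ.ker) :
    ∃ V₀ : Subgroup A.G, A.CG.IsOpen V₀ ∧ ∀ (V : Subgroup A.G) [V.FiniteIndex],
      A.CG.IsOpen V → V ≤ V₀ →
      ∀ x : A.CG.H1 (dt A.ω ρ), A.CG.map1 (dtMap A.ω (counit V ρ)) x = 0 := by
  have hdt : A.CG.IsOpen (dt A.ω ρ).ker := isOpen_ker_dt A.ω A.CG A.ω_open ρ hρ
  obtain ⟨V₀, hV₀, h⟩ := A.CG.efface_of_finite (dt A.ω ρ) hdt (hN.finCohG (dt A.ω ρ) hdt).1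
  refine ⟨V₀, hV₀, fun V _ hV hle x => ?_⟩
  have hcomp : dtMap A.ω (counit V ρ) =
      (dtCoind A.ω V ρ).toIntertwiningMap.comp (unit V (dt A.ω ρ)) := by
    apply IntertwiningMap.ext
    apply LinearMap.ext
    intro φ
    exact (dtCoind_unit A.ω V ρ φ).symm
  rw [hcomp, A.CG.map1_comp, LinearMap.comp_apply, h V hV hle x, map_zero]

end Datum

end

end Fermat.Agent.S55.F
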