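/-
S55 / F-abs / END-2 : the case `N = X_U`: `dim Ш²(X_U) ≤ dim Ш¹(X_U')` (INEQ + numbers), hence by
FORMULA the trace `Ш²(CoInd_V Res X_U) → Ш²(X_U)` vanishes for small `V`.
-/
import Fermat.Agent.S55.F.End.Kill
import Fermat.Agent.S55.F.FO.Formula
import Fermat.Agent.S55.F.FO.Ineq

set_option autoImplicit false
set_option maxSynthPendingDepth 3

namespace Fermat.Agent.S55.F

open Representation Module

noncomputable section

namespace Datum

variable {p : ℕ} [Fact p.Prime] {A : Datum p}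
variable {N : Type} [AddCommGroup N] [Module (ZMod p) N]

theorem Numbers.finrank_sha2_X_le (hN : A.Numbers) {U : Subgroup A.G} (hU : A.CG.IsOpen U)
    (hUω : U ≤ A.ω.ker) :
    finrank (ZMod p) (A.sha2 (X (ZMod p) U)) ≤
      finrank (ZMod p) (A.sha1 (dt A.ω (X (ZMod p) U))) := by
  have hfi : U.FiniteIndex := A.CG.finiteIndex hU
  have hX : A.CG.IsOpen (X (ZMod p) U).ker := isOpen_ker_X A.CG hU
  obtain ⟨V, hV, hkill⟩ := hN.exists_kill (X (ZMod p) U) hX
  have hVfi : V.FiniteIndex := A.CG.finiteIndex hV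
  have hP : A.CG.IsOpen (coindRes V (X (ZMod p) U)).ker :=
    isOpen_ker_coindRes A.CG hV _ hX
  have h1 := hN.ineq (kerSES (counit V (X (ZMod p) U)) (counit_surjective V _)) hP
    (hkill V hV le_rfl)
  have hfin1 : Module.Finite (ZMod p) (A.CG.H1 (X (ZMod p) U)) := hN.n1_fin1 U hU hUω
  -- rank-nullity for `loc¹`
  have h2 : finrank (ZMod p) (LinearMap.range (A.locTot1 (X (ZMod p) U))) +
      finrank (ZMod p) (A.sha1 (X (ZMod p) U)) = finrank (ZMod p) (A.CG.H1 (X (ZMod p) U)) :=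
    LinearMap.finrank_range_add_finrank_ker (A.locTot1 (X (ZMod p) U))
  have h3 : finrank (ZMod p) (A.CG.H1 (dt A.ω (X (ZMod p) U))) =
      finrank (ZMod p) (A.CG.H1 (X (ZMod p) U)) :=
    (A.CG.equivH1 (dtX A.ω U hUω)).finrank_eq
  have h4 : finrank (ZMod p) (A.sha1 (dt A.ω (X (ZMod p) U))) =
      finrank (ZMod p) (A.sha1 (X (ZMod p) U)) := A.finrank_sha1_of_equiv (dtX A.ω U hUω)
  have h5 : finrank (ZMod p) (A.P1 (X (ZMod p) U)) = 2 * A.s U + U.index := by
    rw [← hN.l1g U hU hUω]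
    have : ∀ v, Module.Finite (ZMod p) ((A.CD v).H1 (res (A.r v) (X (ZMod p) U))) := fun v =>
      ((hN.loc v).finCoh _ (A.isOpen_ker_res _ hX v)).1
    exact Module.finrank_pi_fintype (ZMod p)
  have h6 := hN.n1 U hU hUω
  omega

theorem Numbers.counit_sha2_X (hN : A.Numbers) {U : Subgroup A.G} (hU : A.CG.IsOpen U)
    (hUω : U ≤ A.ω.ker) :
    ∃ V₀ : Subgroup A.G, A.CG.IsOpen V₀ ∧ ∀ (V : Subgroup A.G) [V.FiniteIndex],
      A.CG.IsOpen V → V ≤ V₀ → ∀ y : A.CG.H2 (coindRes V (X (ZMod p) U)), y ∈ A.sha2 (coindRes V (X (ZMod p) U)) →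
        A.CG.map2 (counit V (X (ZMod p) U)) y = 0 := by
  have hfi : U.FiniteIndex := A.CG.finiteIndex hU
  have hX : A.CG.IsOpen (X (ZMod p) U).ker := isOpen_ker_X A.CG hU
  obtain ⟨V₀, hV₀, hkill⟩ := hN.exists_kill (X (ZMod p) U) hX
  refine ⟨V₀, hV₀, fun V _ hV hle y hy => ?_⟩
  have hP : A.CG.IsOpen (coindRes V (X (ZMod p) U)).ker :=
    isOpen_ker_coindRes A.CG hV _ hX
  have h1 := hN.formula (kerSES (counit V (X (ZMod p) U)) (counit_surjective V _)) hP
  have hker : LinearMap.ker (A.CG.map1 (dtMap A.ω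
      (kerSES (counit V (X (ZMod p) U)) (counit_surjective V _)).π)) = ⊤ := by
    rw [eq_top_iff]
    intro x _
    exact hkill V hV hle x
  rw [hker, inf_top_eq] at h1
  have h2 := hN.finrank_sha2_X_le hU hUω
  have h3 : finrank (ZMod p) ((A.sha2 (coindRes V (X (ZMod p) U))).map
      (A.CG.map2 (kerSES (counit V (X (ZMod p) U)) (counit_surjective V _)).π)) = 0 := by
    omega
  have hfin2 : Module.Finite (ZMod p) (A.CG.H2 (X (ZMod p) U)) := (hN.finCohG _ hX).2
  have h4 := Submodule.finrank_eq_zero.1 h3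
  have h5 : A.CG.map2 (counit V (X (ZMod p) U)) y ∈ (A.sha2 (coindRes V (X (ZMod p) U))).map
      (A.CG.map2 (kerSES (counit V (X (ZMod p) U)) (counit_surjective V _)).π) :=
    ⟨y, hy, rfl⟩
  rw [h4] at h5
  exact (Submodule.mem_bot _).1 h5

end Datum

end

end Fermat.Agent.S55.F
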