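/-
S55 / F-abs / END-3 : the same vanishing for `CoInd_{U₀} Res N` (`U₀` acting trivially on `N`, `μ`),
by decomposing it into copies of `X_{U₀}`.
-/
import Fermat.Agent.S55.F.End.ShaX

set_option autoImplicit false
set_option maxSynthPendingDepth 3

namespace Fermat.Agent.S55.F

open Representation Module

noncomputable section

namespace Datum

variable {p : ℕ} [Fact p.Prime] {A : Datum p}
variable {N : Type} [AddCommGroup N] [Module (ZMod p) N]

/-- `CoInd_{U₀} Res N` is a direct sum of copies of `X_{U₀}` -/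
theorem exists_decomp {k : Type} [Field k] {Γ : Type} [Group Γ] {N : Type} [AddCommGroup N]
    [Module k N] [Module.Finite k N] (U₀ : Subgroup Γ) (ρ : Representation k Γ N)
    (hρ : U₀ ≤ ρ.ker) :
    ∃ (n : ℕ) (inj : Fin n → (X k U₀).IntertwiningMap (coindRes U₀ ρ))
      (pr : Fin n → (coindRes U₀ ρ).IntertwiningMap (X k U₀)),
      ∀ x, ∑ j, inj j (pr j x) = x := by
  have htriv : ∀ (u : U₀) (x : N), res U₀.subtype ρ u x = x := by
    intro u x
    have h1 : ρ (u : Γ) = 1 := hρ u.2
    show ρ (u : Γ) x = x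
    rw [h1]
    rfl
  let b := Module.finBasis k N
  let ι : Fin (finrank k N) → (Representation.trivial k U₀ k).IntertwiningMap
      (res U₀.subtype ρ) := fun j =>
    ⟨LinearMap.toSpanSingleton k N (b j), fun u => by
      ext
      simp only [LinearMap.comp_apply, htriv]
      rfl⟩
  let π : Fin (finrank k N) → (res U₀.subtype ρ).IntertwiningMap
      (Representation.trivial k U₀ k) := fun j =>
    ⟨b.coord j, fun u => by
      ext x
      simp only [LinearMap.comp_apply, htriv]
      rfl⟩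
  refine ⟨finrank k N, fun j => coindMap U₀.subtype (ι j), fun j => coindMap U₀.subtype (π j), ?_⟩
  intro x
  apply Subtype.ext
  funext γ
  rw [Submodule.coe_sum, Finset.sum_apply]
  have : ∀ j, ((coindMap U₀.subtype (ι j)) ((coindMap U₀.subtype (π j)) x)).1 γ =
      b.repr (x.1 γ) j • b j := fun j => rfl
  rw [Finset.sum_congr rfl fun j _ => this j]
  exact b.sum_repr (x.1 γ)

theorem Numbers.counit_sha2_coindRes (hN : A.Numbers) {U₀ : Subgroup A.G} (hU : A.CG.IsOpen U₀)
    (hUω : U₀ ≤ A.ω.ker) [Module.Finite (ZMod p) N] (ρ : Representation (ZMod p) A.G N)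
    (hρ : U₀ ≤ ρ.ker) :
    ∃ V₀ : Subgroup A.G, A.CG.IsOpen V₀ ∧ ∀ (V : Subgroup A.G) [V.FiniteIndex],
      A.CG.IsOpen V → V ≤ V₀ → ∀ y : A.CG.H2 (coindRes V (coindRes U₀ ρ)), y ∈ A.sha2 (coindRes V (coindRes U₀ ρ)) →
        A.CG.map2 (counit V (coindRes U₀ ρ)) y = 0 := by
  obtain ⟨V₀, hV₀, hvan⟩ := hN.counit_sha2_X hU hUω
  obtain ⟨n, inj, pr, hdec⟩ := exists_decomp U₀ ρ hρ
  refine ⟨V₀, hV₀, fun V _ hV hVV₀ y hy => ?_⟩
  have hid : IntertwiningMap.id (coindRes U₀ ρ) = ∑ j, (inj j).comp (pr j) := by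
    apply IntertwiningMap.ext
    ext1 x
    rw [IntertwiningMap.toLinearMap_apply, IntertwiningMap.toLinearMap_apply,
      IntertwiningMap.sum_apply]
    exact (hdec x).symm
  have hnat : ∀ j, (pr j).comp (counit V (coindRes U₀ ρ)) =
      (counit V (X (ZMod p) U₀)).comp (coindMap V.subtype (resMap V.subtype (pr j))) := by
    intro j
    apply IntertwiningMap.ext
    ext1 x
    exact (counit_naturality V (pr j) x).symm
  have h1 : A.CG.map2 (counit V (coindRes U₀ ρ)) y =
      A.CG.map2 (IntertwiningMap.id (coindRes U₀ ρ)) (A.CG.map2 (counit V (coindRes U₀ ρ)) y) := by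
    rw [A.CG.map2_id]
    rfl
  rw [h1, hid, map_sum, LinearMap.sum_apply]
  apply Finset.sum_eq_zero
  intro j _
  rw [A.CG.map2_comp, LinearMap.comp_apply, ← LinearMap.comp_apply (A.CG.map2 (pr j)),
    ← A.CG.map2_comp, hnat j, A.CG.map2_comp, LinearMap.comp_apply,
    hvan V hV hVV₀ _ (A.map2_mem_sha2 _ hy), map_zero]

end Datum

end

end Fermat.Agent.S55.F
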