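/-
S55 / F-abs / END-4 : THE ABSTRACT POITOU-TATE THEOREM.
-/
import Fermat.Agent.S55.F.End.ShaInd

set_option autoImplicit false
set_option maxSynthPendingDepth 3

namespace Fermat.Agent.S55.F

open Representation Module

noncomputable section

namespace Datum

variable {p : ℕ} [Fact p.Prime] {A : Datum p}
variable {N : Type} [AddCommGroup N] [Module (ZMod p) N]

/-- the trace `Ш²(CoInd_V Res N) → Ш²(N)` vanishes for all small `V` -/
theorem Numbers.counit_sha2 (hN : A.Numbers) [Module.Finite (ZMod p) N]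
    (ρ : Representation (ZMod p) A.G N) (hρ : A.CG.IsOpen ρ.ker) :
    ∃ V₀ : Subgroup A.G, A.CG.IsOpen V₀ ∧ ∀ (V : Subgroup A.G) [V.FiniteIndex],
      A.CG.IsOpen V → V ≤ V₀ → ∀ y : A.CG.H2 (coindRes V ρ), y ∈ A.sha2 (coindRes V ρ) →
        A.CG.map2 (counit V ρ) y = 0 := by
  set U₀ : Subgroup A.G := ρ.ker ⊓ A.ω.ker with hU₀
  have hU₀o : A.CG.IsOpen U₀ := A.CG.isOpen_inf hρ A.ω_open
  have : U₀.FiniteIndex := A.CG.finiteIndex hU₀o
  obtain ⟨V₁, hV₁o, hV₁⟩ := hN.counit_sha2_coindRes hU₀o inf_le_right ρ inf_le_left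
  have hM₀o : A.CG.IsOpen (coindRes U₀ ρ).ker := isOpen_ker_coindRes A.CG hU₀o ρ hρ
  refine ⟨V₁ ⊓ (coindRes U₀ ρ).ker ⊓ ρ.ker,
    A.CG.isOpen_inf (A.CG.isOpen_inf hV₁o hM₀o) hρ, ?_⟩
  intro V _ hVo hV y hy
  have hVV₁ : V ≤ V₁ := hV.trans (inf_le_left.trans inf_le_left)
  have hVM₀ : V ≤ (coindRes U₀ ρ).ker := hV.trans (inf_le_left.trans inf_le_right)
  have hVρ : V ≤ ρ.ker := hV.trans inf_le_right
  -- a linear section of `ε₀`
  obtain ⟨s, hs⟩ := LinearMap.exists_rightInverse_of_surjective (counit U₀ ρ).toLinearMap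
    (LinearMap.range_eq_top.2 (counit_surjective U₀ ρ))
  let s' : (res V.subtype ρ).IntertwiningMap (res V.subtype (coindRes U₀ ρ)) :=
    ⟨s, fun v => by
      have h1 : ρ (v : A.G) = 1 := hVρ v.2
      have h2 : coindRes U₀ ρ (v : A.G) = 1 := hVM₀ v.2
      show s ∘ₗ ρ (v : A.G) = coindRes U₀ ρ (v : A.G) ∘ₗ s
      rw [h1, h2]
      rfl⟩
  have hcomp : (coindMap V.subtype (resMap V.subtype (counit U₀ ρ))).comp
      (coindMap V.subtype s') = IntertwiningMap.id (coindRes V ρ) := by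
    apply IntertwiningMap.ext
    ext x g
    show counit U₀ ρ (s (x.1 g)) = x.1 g
    exact LinearMap.congr_fun hs (x.1 g)
  have hnat : (counit V ρ).comp (coindMap V.subtype (resMap V.subtype (counit U₀ ρ))) =
      (counit U₀ ρ).comp (counit V (coindRes U₀ ρ)) := by
    apply IntertwiningMap.ext
    ext x
    exact counit_naturality V (counit U₀ ρ) x
  have hy' : A.CG.map2 (coindMap V.subtype s') y ∈ A.sha2 (coindRes V (coindRes U₀ ρ)) :=
    A.map2_mem_sha2 _ hy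
  have h0 := hV₁ V hVo hVV₁ _ hy'
  have hy1 : y = A.CG.map2 (coindMap V.subtype (resMap V.subtype (counit U₀ ρ)))
      (A.CG.map2 (coindMap V.subtype s') y) := by
    rw [← LinearMap.comp_apply, ← A.CG.map2_comp, hcomp, A.CG.map2_id]
    rfl
  rw [hy1, ← LinearMap.comp_apply, ← A.CG.map2_comp, hnat, A.CG.map2_comp, LinearMap.comp_apply, h0,
    map_zero]

/-- **Main theorem of block F-abs.** -/
theorem Numbers.main (hN : A.Numbers) [Module.Finite (ZMod p) N]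
    (ρ : Representation (ZMod p) A.G N) (hρ : A.CG.IsOpen ρ.ker) :
    Module.Finite (ZMod p) (A.sha1 (dt A.ω ρ)) ∧ Module.Finite (ZMod p) (A.sha2 ρ) ∧
      finrank (ZMod p) (A.sha1 (dt A.ω ρ)) = finrank (ZMod p) (A.sha2 ρ) := by
  have hf1 : Module.Finite (ZMod p) (A.CG.H1 (dt A.ω ρ)) :=
    (hN.finCohG (dt A.ω ρ) (isOpen_ker_dt A.ω A.CG A.ω_open ρ hρ)).1
  have hf2 : Module.Finite (ZMod p) (A.CG.H2 ρ) := (hN.finCohG ρ hρ).2
  refine ⟨inferInstance, inferInstance, ?_⟩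
  obtain ⟨V₁, hV₁o, hV₁⟩ := hN.counit_sha2 ρ hρ
  obtain ⟨V₂, hV₂o, hV₂⟩ := hN.exists_kill ρ hρ
  have hVo : A.CG.IsOpen (V₁ ⊓ V₂) := A.CG.isOpen_inf hV₁o hV₂o
  have : (V₁ ⊓ V₂).FiniteIndex := A.CG.finiteIndex hVo
  have hform := hN.formula (kerSES (counit (V₁ ⊓ V₂) ρ) (counit_surjective (V₁ ⊓ V₂) ρ))
    (isOpen_ker_coindRes A.CG hVo ρ hρ)
  rw [kerSES_π] at hform
  have hker : LinearMap.ker (A.CG.map1 (dtMap A.ω (counit (V₁ ⊓ V₂) ρ))) = ⊤ := by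
    rw [eq_top_iff]
    intro x _
    exact hV₂ (V₁ ⊓ V₂) hVo inf_le_right x
  have hmap : (A.sha2 (coindRes (V₁ ⊓ V₂) ρ)).map (A.CG.map2 (counit (V₁ ⊓ V₂) ρ)) = ⊥ := by
    rw [eq_bot_iff]
    rintro _ ⟨y, hy, rfl⟩
    exact hV₁ (V₁ ⊓ V₂) hVo inf_le_left y hy
  rw [hker, hmap, inf_top_eq, finrank_bot, add_zero] at hform
  exact hform.symm

/-- the form used by the assembly -/
theorem Numbers.exists_pairing (hN : A.Numbers) [Module.Finite (ZMod p) N]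
    (ρ : Representation (ZMod p) A.G N) (hρ : A.CG.IsOpen ρ.ker) :
    ∃ B : A.sha1 (dt A.ω ρ) →ₗ[ZMod p] A.sha2 ρ →ₗ[ZMod p] ZMod p,
      (∀ y, (∀ x, B y x = 0) → y = 0) ∧ (∀ x, (∀ y, B y x = 0) → x = 0) := by
  obtain ⟨h1, h2, h3⟩ := hN.main ρ hρ
  exact LA.exists_perfect_pairing h3

end Datum

end

end Fermat.Agent.S55.F
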